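import Fermat.Agent.Carayol.Connect.Main
import Fermat.Agent.JTorsion.LatMod
import Fermat.Prelude.Def_GaloisRep_LocalConditions
import Mathlib.AlgebraicGeometry.EllipticCurve.DivisionPolynomial.Degree

/-!
# Contracts for the vanishing of inertia-fixed classes of level `q² M'`

In the variable `τ = q z` the group `Γ₀(q² M')` becomes `gsp q M'`, which contains `Γ(2 q M')`.
`FixedVanish`: a torsion class fixed by inertia at `q` whose two traces to level `q M'` vanish on
`Γ(2 q M')` is killed by a constant.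
-/

set_option autoImplicit false

noncomputable section

namespace FA.Carayol

open CongruenceSubgroup FA.Level FA.JTorsion Polynomial
open scoped MatrixGroups

local notation "Qb" => AlgebraicClosure ℚ

/-- `Γ₀(q² M')` in the variable `q z`: `q ∣ b` and `q M' ∣ c`. -/
def gsp (q M' : ℕ) : Subgroup SL(2, ℤ) where
  carrier := {g | (q : ℤ) ∣ g 0 1 ∧ ((q * M' : ℕ) : ℤ) ∣ g 1 0}
  one_mem' := by simp
  mul_mem' := by
    rintro a b ⟨h1, h2⟩ ⟨h3, h4⟩
    refine ⟨?_, ?_⟩
    · simp only [Matrix.SpecialLinearGroup.coe_mul, Matrix.mul_apply, Fin.sum_univ_two]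
      exact dvd_add (h3.mul_left _) (h1.mul_right _)
    · simp only [Matrix.SpecialLinearGroup.coe_mul, Matrix.mul_apply, Fin.sum_univ_two]
      exact dvd_add (h2.mul_right _) (h4.mul_left _)
  inv_mem' := by
    rintro a ⟨h1, h2⟩
    rw [Set.mem_ofPred_eq, Matrix.SpecialLinearGroup.coe_inv, Matrix.adjugate_fin_two]
    exact ⟨by simpa using h1, by simpa using h2⟩

theorem mem_gsp {q M' : ℕ} {g : SL(2, ℤ)} :
    g ∈ gsp q M' ↔ (q : ℤ) ∣ g 0 1 ∧ ((q * M' : ℕ) : ℤ) ∣ g 1 0 := Iff.rfl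

theorem gamma_le_gsp (q M' : ℕ) : Gamma (2 * q * M') ≤ gsp q M' := by
  intro g hg
  rw [Gamma_mem] at hg
  have h1 := (ZMod.intCast_zmod_eq_zero_iff_dvd _ _).mp hg.2.1
  have h2 := (ZMod.intCast_zmod_eq_zero_iff_dvd _ _).mp hg.2.2.1
  exact ⟨dvd_trans ⟨2 * M', by push_cast; ring⟩ h1, dvd_trans ⟨2, by push_cast; ring⟩ h2⟩

variable {q : ℕ} [hq : Fact q.Prime] {M' : ℕ}

/-- Back to the variable `z`. -/
def zConj (g : gsp q M') : Gamma0 (q * q * M') :=
  ⟨⟨!![(g : SL(2, ℤ)) 0 0, (g : SL(2, ℤ)) 0 1 / (q : ℤ); (g : SL(2, ℤ)) 1 0 * (q : ℤ),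
      (g : SL(2, ℤ)) 1 1], by
    rw [Matrix.det_fin_two_of]
    obtain ⟨e, he⟩ := g.2.1
    have hd := Matrix.SpecialLinearGroup.det_coe (g : SL(2, ℤ))
    rw [Matrix.det_fin_two, he] at hd
    rw [he, Int.mul_ediv_cancel_left _ (Int.natCast_ne_zero.mpr hq.out.ne_zero)]
    linear_combination hd⟩, by
    refine Gamma0_mem.mpr ((ZMod.intCast_zmod_eq_zero_iff_dvd _ _).mpr ?_)
    obtain ⟨e, he⟩ := g.2.2
    exact ⟨e, show (g : SL(2, ℤ)) 1 0 * (q : ℤ) = _ by rw [he]; push_cast; ring⟩⟩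

/-- The upper unipotent. -/
def upU (b : ℤ) : SL(2, ℤ) := ⟨!![1, b; 0, 1], by simp [Matrix.det_fin_two_of]⟩

/-- The lower unipotent. -/
def lowU (b : ℤ) : SL(2, ℤ) := ⟨!![1, 0; b, 1], by simp [Matrix.det_fin_two_of]⟩

/-- A conjugate of an element of `Γ(2 q M')`. -/
def gConj (g : SL(2, ℤ)) (γ : Gamma (2 * q * M')) : Gamma (2 * q * M') :=
  ⟨g * γ * g⁻¹, (Gamma_normal (2 * q * M')).conj_mem _ γ.2 g⟩

/-- A character of `Γ₀(q² M')` on `Γ(2 q M')`, in the variable `q z`. -/
def resTau {R : Type} (c : Gamma0 (q * q * M') → R) (γ : Gamma (2 * q * M')) : R :=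
  c (zConj ⟨γ, gamma_le_gsp q M' γ.2⟩)

/-- The two traces to level `q M'` vanish on `Γ(2 q M')`. -/
def TracesVanish {R : Type} [AddCommMonoid R] (c : Gamma0 (q * q * M') → R) : Prop :=
  ∀ γ : Gamma (2 * q * M'),
    (∑ b ∈ Finset.range q, resTau c (gConj (upU b) γ)) = 0 ∧
    (∑ b ∈ Finset.range q, resTau c (gConj (lowU (b * M')) γ)) = 0

/-- **Classes fixed by one inertia group at `q` with vanishing traces are killed by a constant.** -/
def FixedVanish (q M' : ℕ) [Fact q.Prime] [NeZero M'] : Prop :=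
  ¬ q ∣ M' → ∀ [Algebra Qb ℂ] [NeZero (q * q * M')],
    ∀ A : ValuationSubring Qb, A.LiesOverPrime q →
    ∃ C : ℕ, C ≠ 0 ∧ ∀ (n : ℕ) [NeZero n], ¬ q ∣ n →
      ∀ x : tors (lvlGamma0 (q * q * M')) Qb n,
        (∀ σ ∈ A.inertiaSubgroupIn ℚ,
          σ • (x.1 : ModularCurve.JZero (q * q * M')) = x.1) →
        TracesVanish (fun γ => kumFun x γ) → C • x = 0

/-! ### The Hasse invariant -/

/-- The Legendre curve. -/
def legendre {R : Type*} [CommRing R] (l : R) : WeierstrassCurve R := ⟨0, -(1 + l), 0, l, 0⟩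

/-- The division polynomial of the Legendre curve in characteristic `q`. -/
def psiQ (q : ℕ) (k : Type*) [CommRing k] : Polynomial (Polynomial k) :=
  (legendre (X : Polynomial k)).preΨ' q

/-- The Hasse invariant: the coefficient of `x ^ (q (q - 1) / 2)`. -/
def hasse (q : ℕ) (k : Type*) [CommRing k] : Polynomial k :=
  (psiQ q k).coeff (q * ((q - 1) / 2))

/-- What is used about the division polynomial in characteristic `q`. -/
structure HasseFacts (q : ℕ) (k : Type*) [Field k] : Prop where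
  /-- it is a polynomial in `x ^ q` -/
  coeff_eq_zero : ∀ i, ¬ q ∣ i → (psiQ q k).coeff i = 0
  /-- of degree at most `q (q - 1) / 2` -/
  natDegree_le : (psiQ q k).natDegree ≤ q * ((q - 1) / 2)
  separable : (hasse q k).Separable
  eval_zero_ne : (hasse q k).eval 0 ≠ 0
  eval_one_ne : (hasse q k).eval 1 ≠ 0
  /-- at a supersingular value only the constant is left -/
  of_root : ∀ c : k, c ≠ 0 → c ≠ 1 → (hasse q k).eval c = 0 →
    (∀ i, i ≠ 0 → ((psiQ q k).coeff i).eval c = 0) ∧ ((psiQ q k).coeff 0).eval c ≠ 0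

/-- The facts hold over algebraically closed fields of characteristic `q`. -/
def HasseHolds (q : ℕ) [Fact q.Prime] : Prop :=
  q ≠ 2 → ∀ (k : Type) [Field k] [CharP k q] [IsAlgClosed k], HasseFacts q k

/-! ### Gluing roots over the special fibre -/

section glue

variable {K E : Type} [Field K] [Field E] [Algebra (RatFunc K) E]

/-- The coefficient ring. -/
def baseO (A : ValuationSubring K) (L : Subfield K) : Subring K := A.toSubring ⊓ L.toSubring

/-- Evaluation at a coordinate. -/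
def baseHom (A : ValuationSubring K) (L : Subfield K) (z : RatFunc K) :
    Polynomial (baseO A L) →+* E :=
  eval₂RingHom ((cst (K := K) (E := E)).comp (baseO A L).subtype) (algebraMap (RatFunc K) E z)

/-- The chart ring of a subfield. -/
def chartSet (A : ValuationSubring K) (L : Subfield K) (F : Subfield E) (z : RatFunc K) : Set E :=
  {b | b ∈ F ∧ (baseHom A L z).IsIntegralElem b}

/-- A valuation ring over the generic point of the special fibre. -/
def IsVertical (A : ValuationSubring K) (L : Subfield K) (ϖ : baseO A L)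
    (W : ValuationSubring E) : Prop :=
  W.valuation (cst (ϖ : K)) < 1 ∧
    ∀ P : Polynomial (baseO A L), (∃ i, IsUnit (P.coeff i)) →
      W.valuation (baseHom A L RatFunc.X P) = 1

/-- A point of the special fibre in a chart. -/
structure IsPoint (A : ValuationSubring K) (L : Subfield K) (ϖ : baseO A L) (F : Subfield E)
    (z : RatFunc K) (m : Set E) : Prop where
  sub : m ⊆ chartSet A L F z
  zero_mem : (0 : E) ∈ m
  add_mem : ∀ a ∈ m, ∀ b ∈ m, a + b ∈ m
  mul_mem : ∀ a ∈ chartSet A L F z, ∀ b ∈ m, a * b ∈ m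
  one_notMem : (1 : E) ∉ m
  pi_mem : cst (ϖ : K) ∈ m
  maximal : ∀ a ∈ chartSet A L F z, a ∉ m → ∃ b ∈ chartSet A L F z, a * b - 1 ∈ m

/-- Near every point `f` is a unit times the `n`-th power of `π`, and the reductions `g` on the
branches, divided by `π`, take one value `a`. -/
def RootsAgree (A : ValuationSubring K) (L : Subfield K) (ϖ : baseO A L) (F : Subfield E) (n : ℕ)
    (f : E) (g : ValuationSubring E → E) (z : RatFunc K) : Prop :=
  ∀ m, IsPoint A L ϖ F z m → ∃ π ∈ F, ∃ a ∈ chartSet A L F z, π ≠ 0 ∧ a ∉ m ∧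
    (∃ b ∈ chartSet A L F z, ∃ c ∈ chartSet A L F z, b ∉ m ∧ c ∉ m ∧ f * c = π ^ n * b) ∧
    ∀ W, IsVertical A L ϖ W → (∀ s ∈ chartSet A L F z, W.valuation s < 1 → s ∈ m) →
      ∃ b ∈ chartSet A L F z, ∃ c ∈ chartSet A L F z, c ∉ m ∧ b - a * c ∈ m ∧
        W.valuation (g W / π * c - b) < 1

/-- The standing hypotheses on constants. -/
structure ConstHyp (A : ValuationSubring K) (L : Subfield K) (ϖ : baseO A L) : Prop where
  dvr : IsDiscreteValuationRing (baseO A L)
  irreducible : Irreducible ϖ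
  unique : ∀ A' : ValuationSubring K, (∀ a : baseO A L, (a : K) ∈ A') →
    A'.valuation (ϖ : K) < 1 → A' = A
  residue : ∀ a ∈ A, ∃ b : baseO A L, A.valuation (a - (b : K)) < 1
  arch : ∀ c : A, c ≠ 0 → ∃ k : ℕ, A.valuation ((ϖ : K) ^ k) ≤ A.valuation (c : K)

/-- **Compatible roots on the special fibre give a root.** -/
def GlueRoots : Prop :=
  ∀ (K E : Type) [Field K] [IsAlgClosed K] [CharZero K] [Field E] [Algebra (RatFunc K) E]
    [FiniteDimensional (RatFunc K) E] (A : ValuationSubring K) (L : Subfield K) (ϖ : baseO A L),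
    ConstHyp A L ϖ →
    ∀ (n : ℕ), A.valuation (n : K) = 1 → (∃ ζ : K, ζ ∈ L ∧ IsPrimitiveRoot ζ n) →
    ∀ (F : Subfield E) (s : Finset E),
      F = Subfield.closure (cst '' (L : Set K) ∪ {algebraMap (RatFunc K) E RatFunc.X} ∪ ↑s) →
      (∀ a ∈ s, ∃ p : Polynomial (Subfield.closure
        (cst '' (L : Set K) ∪ {algebraMap (RatFunc K) E RatFunc.X})),
        p ≠ 0 ∧ p.eval₂ (Subfield.subtype _) a = 0) →
      ∀ (h f : E), f ∈ F → f ≠ 0 → h ^ n = f →
        ∀ g : ValuationSubring E → E,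
          (∀ W, IsVertical A L ϖ W → g W ∈ F ∧ g W ≠ 0 ∧ W.valuation (f / g W ^ n - 1) < 1) →
          (∀ W W', IsVertical A L ϖ W → IsVertical A L ϖ W' →
            (∀ a ∈ F, a ∈ W ↔ a ∈ W') → g W = g W') →
          RootsAgree A L ϖ F n f g RatFunc.X → RootsAgree A L ϖ F n f g RatFunc.X⁻¹ →
          h ∈ F

end glue

/-! ### Algebra -/

/-- A local domain with a system of two parameters is factorial. -/
def TwoParam : Prop :=
  ∀ (R : Type) [CommRing R] [IsDomain R] [IsNoetherianRing R] [IsLocalRing R] (u w : R),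
    IsLocalRing.maximalIdeal R = Ideal.span {u, w} → u ≠ 0 → (∀ k : ℕ, ¬ u ∣ w ^ k) →
      UniqueFactorizationMonoid R ∧ Prime u

/-- In a normal Noetherian domain an element which is a uniformiser at every minimal prime over it
generates a radical ideal. -/
def UnramRadical : Prop :=
  ∀ (R : Type) [CommRing R] [IsDomain R] [IsNoetherianRing R] [IsIntegrallyClosed R] (t : R),
    t ≠ 0 → (∀ P ∈ (Ideal.span {t}).minimalPrimes,
      ∀ a ∈ P, ∃ s, s ∉ P ∧ t ∣ s * a) → (Ideal.span {t}).IsRadical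

end FA.Carayol

end
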