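import Fermat.Agent.Carayol.Field.Conj
import Fermat.Agent.Carayol.Defs
import Fermat.Agent.LocalDef.Unr

/-!
# Constants at a place over `q`, and the interface with the torsion classes

`constL A q` is the fixed field of inertia with the `q`-th roots of unity adjoined, `constK A q` its
image in `ℂ`; the level is `N = q * m` with `m` prime to `q` and divisible by `M'`.
-/

set_option autoImplicit false
set_option linter.unusedSectionVars false

noncomputable section

namespace FA.Carayol

open CongruenceSubgroup HahnSeries FA.Level FA.JTorsion FA.LocalDef FA.Mazur.Wp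
open scoped MatrixGroups

local notation "Qb" => AlgebraicClosure ℚ

variable [Algebra Qb ℂ]

/-- The constants in `ℚ̄`. -/
def constL (A : ValuationSubring Qb) (q : ℕ) : IntermediateField ℚ Qb :=
  kur A ⊔ IntermediateField.adjoin ℚ {z : Qb | z ^ q = 1}

/-- The constants in `ℂ`. -/
def constK (A : ValuationSubring Qb) (q : ℕ) : Subfield ℂ :=
  (constL A q).toSubfield.map (algebraMap Qb ℂ)

/-- The unramified constants in `ℂ`. -/
def constK0 (A : ValuationSubring Qb) : Subfield ℂ :=
  (kur A).toSubfield.map (algebraMap Qb ℂ)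

/-- The facts about the constants. -/
structure ConstFacts (A : ValuationSubring Qb) (q m : ℕ) : Prop where
  roots : ∀ b : ℤ, eta (q * m) b ∈ constK A q
  /-- the constants are strictly henselian enough: a uniformiser, discreteness, residues -/
  const : ∃ ϖ : baseO A (constL A q).toSubfield,
    A.valuation ((ϖ : Qb)) ^ (q - 1) = A.valuation (q : Qb) ∧
      ConstHyp A (constL A q).toSubfield ϖ
  /-- roots of unity of order prime to `q` -/
  roots_prime : ∀ n : ℕ, n ≠ 0 → ¬ q ∣ n →
    ∃ ζ : Qb, ζ ∈ constL A q ∧ IsPrimitiveRoot ζ n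
  /-- inertia gives every exponent, is trivial on residues and fixes the unramified constants -/
  inertia : ∀ s : ℤ, ¬ (q : ℤ) ∣ s → (m : ℤ) ∣ s - 1 →
    ∃ σ : constK A q ≃+* constK A q,
      (∀ (b : ℤ) (hb : eta (q * m) b ∈ constK A q),
        (σ ⟨eta (q * m) b, hb⟩ : ℂ) = eta (q * m) (s * b)) ∧
      (∀ c : constK A q, (c : ℂ) ∈ constK0 A → σ c = c) ∧
      (∀ x y : Qb, ∀ hx : algebraMap Qb ℂ x ∈ constK A q,
        algebraMap Qb ℂ y = (σ ⟨algebraMap Qb ℂ x, hx⟩ : ℂ) → x ∈ A →
          A.valuation (y - x) < 1)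

/-- The constants are as wanted. -/
def ConstHolds (q : ℕ) [Fact q.Prime] : Prop :=
  ∀ (A : ValuationSubring Qb), A.LiesOverPrime q → ∀ m : ℕ, m ≠ 0 → ¬ q ∣ m → ConstFacts A q m

/-- What the geometry needs from a class: a function `f` of level `q * m` whose `n`-th roots detect
the class. -/
def FrontEnd (q M' m : ℕ) [Fact q.Prime] [NeZero M'] [NeZero m] (A : ValuationSubring Qb) : Prop :=
  ∀ [NeZero (q * q * M')] [NeZero (q * m)],
    ∃ C₀ : ℕ, C₀ ≠ 0 ∧ ∀ (n : ℕ) [NeZero n], ¬ q ∣ n →
      ∀ x : tors (lvlGamma0 (q * q * M')) Qb n,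
        (∀ σ ∈ A.inertiaSubgroupIn ℚ,
          σ • (x.1 : ModularCurve.JZero (q * q * M')) = x.1) →
        TracesVanish (fun γ => kumFun x γ) →
        ∃ f : flN (q * m) (constK A q), f ≠ 0 ∧
          (∀ γ ∈ gsp q M', merSL γ (f : Mer) = (f : Mer)) ∧
          (∀ i, (((ser f).coeff i : constK A q) : ℂ) ∈ constK0 A) ∧
          (∀ V : ValuationSubring (flN (q * m) (constK A q)), (∀ c : constK A q, toFl (rC c) ∈ V) →
            ∃ g : flN (q * m) (constK A q), g ≠ 0 ∧ V.valuation f = V.valuation g ^ n) ∧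
          (∃ c : constK A q, c ≠ 0 ∧ ∃ y : flN (q * m) (constK A q),
            ∏ b ∈ Finset.range q, merSL (upU b) (f : Mer) = merC (c : ℂ) * (y : Mer) ^ n) ∧
          (∃ c : constK A q, c ≠ 0 ∧ ∃ y : flN (q * m) (constK A q),
            ∏ b ∈ Finset.range q, merSL (lowU (b * M')) (f : Mer) = merC (c : ℂ) * (y : Mer) ^ n) ∧
          ∀ e : ℕ, (∃ (c : ℂ) (y : flN (q * m) (constK A q)),
            (f : Mer) ^ e = merC c * (y : Mer) ^ n) → (C₀ * e) • x = 0

/-- The interface holds. -/
def FrontEndHolds (q M' m : ℕ) [Fact q.Prime] [NeZero M'] [NeZero m] : Prop :=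
  ¬ q ∣ m → M' ∣ m → 2 ∣ q * m → 4 ≤ q * m →
    ∀ A : ValuationSubring Qb, A.LiesOverPrime q → FrontEnd q M' m A

end FA.Carayol

end
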